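import Fermat.Agent.S48.H282.K3In
import Fermat.Agent.S48.H882.K3Leaf

/-!
# Tower A1 / A1-KUM — leaf `k3` CLOSED: `Kum.PieceK3 (Gamma1 M) (F1Bar M) ℓ` (helper282)

`pieceK3_Gamma1 M ℓ hℓ : Kum.PieceK3 (Gamma1 M) (F1.F1Bar M) ℓ`, UNCONDITIONAL: helper882's
`H882.pieceK3_f1_of` (GEN + MERO + the descent `ℂ → ℚ̄`) fed with the two inputs
`H282.dfromG_Gamma1` (DFROM) and `H282.dtoG_Gamma1` (DTO) of `K3In.lean`.
-/

set_option autoImplicit false

noncomputable section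

open ModularCurve UpperHalfPlane AlgebraicCurve CongruenceSubgroup
open scoped MatrixGroups Manifold

namespace Fermat.Agent.S48.H282

open Fermat.Agent.S24 Fermat.Agent.S48.H332
open Fermat.Agent.S48.H882 (charOf charOf_apply isTwistedG_of_kum pieceK3_f1_of)

variable {Γ : Subgroup SL(2, ℤ)} {p : ℕ} [NeZero p]

theorem charOf_eq_one_of_eq_zero {c : Γ → ZMod p} (hc : ∀ γ γ' : Γ, c (γ * γ') = c γ + c γ')
    {γ : Γ} (h0 : c γ = 0) : charOf c hc γ = 1 := by
  apply Units.ext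
  rw [charOf_apply, Units.val_one, h0, ZMod.val_zero, pow_zero]

/-- the multiplicative character of a parabolic additive character is trivial on the parabolic
elements -/
theorem gParTriv_charOf {c : Γ → ZMod p} (hc : Kum.IsParHom Γ c) :
    GParTriv (charOf c hc.map_mul) :=
  fun γ hγ => charOf_eq_one_of_eq_zero hc.map_mul (hc.parabolic γ hγ)

/-- the multiplicative character of a parabolic additive character is trivial on the elements of
finite order -/
theorem gEllTriv_charOf {c : Γ → ZMod p} (hc : Kum.IsParHom Γ c) :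
    GEllTriv (charOf c hc.map_mul) :=
  fun γ n hn hγ => charOf_eq_one_of_eq_zero hc.map_mul (hc.elliptic γ n hn hγ)

/-- **DTO for `(Γ₁(M), F1 M)`**, in the shape used by `H882.pieceK3_f1_of`. -/
theorem dtoG_Gamma1_kum (M : ℕ) [NeZero M] {c : Gamma1 M → ZMod p}
    (hc : Kum.IsParHom (Gamma1 M) c) {U : ℍ → ℂ} (hU : Kum.IsTwisted (Gamma1 M) p c U) :
    Fermat.Agent.S48.H882.DToG (Fermat.Agent.S48.F1.F1 M) p U :=
  dtoG_Gamma1 (gParTriv_charOf hc) (gEllTriv_charOf hc) (isTwistedG_of_kum hc.map_mul hU)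

/-- **Leaf `k3` of `Kum.Leaves`** (descent `ℂ → ℚ̄` of the Kummer functions), UNCONDITIONAL. -/
theorem pieceK3_Gamma1 (M : ℕ) [NeZero M] (ℓ : ℕ) (hℓ : ℓ.Prime) :
    Kum.PieceK3 (Gamma1 M) (Fermat.Agent.S48.F1.F1Bar M) ℓ :=
  haveI : NeZero ℓ := ⟨hℓ.ne_zero⟩
  pieceK3_f1_of M ℓ hℓ (dfromG_Gamma1 M ℓ) (fun hc _ hU => dtoG_Gamma1_kum M hc hU)

end Fermat.Agent.S48.H282
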