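import Fermat.Agent.S48.H282.PkgK
import Fermat.Agent.S29.H282.DictEasy

/-!
# Tower A1 / A1-KUM, K3 inputs (helper282) — the places dictionary of `K·ℚ(S₀)`, generic

Generic port (ANY `Γ`, ANY set `S₀ ∋ j` of rational generators with analytic input
`D : GenData M Γ (GenField.ofRat S₀ hj)`, ANY algebraically closed `K` with `ι : K →+* ℂ`) of
`S29/H282/{Rot,Dict,DictEasy}`:

* `IsAvatarG`                : `h : Hol` is an analytic avatar of `f : FGK K S₀`;
* `exists_placeOf_eqG`       : every place of `K·ℚ(S₀) / K` is induced by one of the embeddings of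
                               `dataInfG` or `dataFinG a`;
* `dvd_ord_of_isAvatar_powG` : (**DICT-hard**) `f` with avatar `h ^ m`, `h` invariant under the
                               special elements of `Γ` ⟹ `m ∣ ord_w f` at every place `w`;
* `IsAvatarG.exists_ordAt_eq_mul` : (**DICT-easy**) `m ∣ ord_w f` at every place ⟹
                               `m ∣ ord_τ h` at every `τ` with `j(τ) ∈ ι(K)`.
-/

set_option autoImplicit false
set_option linter.style.haveILetI false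
set_option linter.unusedVariables false
set_option linter.unusedSectionVars false

noncomputable section

open ModularCurve HahnSeries UpperHalfPlane AlgebraicCurve IntermediateField
open scoped MatrixGroups Manifold

namespace Fermat.Agent.S48.H282

open Fermat.Agent.S24 Fermat.Agent.S24.H997 Fermat.Agent.S24.Deg457 Fermat.Agent.S24.H624
open Fermat.Agent.S20.L1
open Fermat.Agent.S48.H332
open Fermat.Agent.S29.H282 (ΦK ΦK_injective ΦK_coeff ΦK_algebraMap ι_algebraMap epsAt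
  IsSpecialElt isSpecialElt_T_pow isSpecialElt_epsAt_pow card_orbit_eq_ord_t perm_pow_ord_t_apply)

/-! ### Iterating the rotation relation -/

section Rot

variable {M : ℕ} [NeZero M] {Γ : Subgroup SL(2, ℤ)} {P : GenField}
variable (B : GenBase M Γ P) (X : GenExpansion B)

theorem compH_pow_succG (ε : SL(2, ℤ)) (i : ℕ) (H : B.Hol) :
    B.compH (ε ^ (i + 1)) H = B.compH ε (B.compH (ε ^ i) H) := by
  rw [pow_succ, GenBase.compH_mul]

/-- iterating the rotation relation -/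
theorem rot_iterateG (ε : SL(2, ℤ)) (R : GenRotData B X ε) (H : B.Hol) (i : ℕ) :
    (X.E (B.compH (ε ^ i) H)).order = (X.E H).order ∧
      (X.E (B.compH (ε ^ i) H)).leadingCoeff
        = (R.ζ ^ (X.E H).order) ^ i * (X.E H).leadingCoeff := by
  induction i with
  | zero => simp [GenBase.compH_one]
  | succ n ih =>
    have h := R.rot (B.compH (ε ^ n) H)
    rw [compH_pow_succG]
    refine ⟨by rw [h.1, ih.1], ?_⟩
    rw [h.2, ih.1, ih.2, pow_succ]
    ring

/-- **Key divisibility.**  If `H` is invariant under `ε ^ e`, then the order `m` of the rotation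
divides `e * ord (E H)`. -/
theorem rot_dvd_of_compH_pow_eqG (ε : SL(2, ℤ)) (R : GenRotData B X ε) (H : B.Hol) (e : ℕ)
    (hH : B.compH (ε ^ e) H = H) : (R.m : ℤ) ∣ (e : ℤ) * (X.E H).order := by
  by_cases h0 : X.E H = 0
  · rw [h0, order_zero, mul_zero]
    exact dvd_zero _
  · have hlc : (X.E H).leadingCoeff ≠ 0 := leadingCoeff_ne_zero.mpr h0
    have h := (rot_iterateG B X ε R H e).2
    rw [hH] at h
    have h1 : (R.ζ ^ (X.E H).order) ^ e = 1 := by
      have : (R.ζ ^ (X.E H).order) ^ e * (X.E H).leadingCoeff = 1 * (X.E H).leadingCoeff := by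
        rw [one_mul]; exact h.symm
      exact mul_right_cancel₀ hlc this
    have h2 : R.ζ ^ ((X.E H).order * (e : ℤ)) = 1 := by
      rw [zpow_mul, zpow_natCast]
      exact h1
    have h3 := (R.hζ.zpow_eq_one_iff_dvd _).mp h2
    rwa [mul_comm] at h3

end Rot

/-! ### Avatars -/

section Avatar

variable {K : Type*} [Field K] [Algebra ℚ K] (ι : K →+* ℂ)
variable {S₀ : Set (LaurentSeries ℚ)} {hj : jq ∈ S₀}
variable {M : ℕ} [NeZero M] {Γ : Subgroup SL(2, ℤ)} (B : GenBase M Γ (GenField.ofRat S₀ hj))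

/-- `h : Hol` is an analytic avatar of `f : FGK K S₀`: the expansion of `h` at `i∞` (in the
variable `q^{1/M}`) is the Laurent series `f` (coefficients mapped by `ι`). -/
def IsAvatarG (f : FGK K S₀) (h : B.Hol) : Prop := B.qexp h = ΦK ι M (f : LaurentSeries K)

variable {ι B}

theorem isAvatarG_inclRGK (r : RGK K S₀) : IsAvatarG ι B (inclRGK K S₀ r) (bridgeGK ι B r) :=
  qexp_bridgeGK ι B r

theorem IsAvatarG.unique {f : FGK K S₀} {h h' : B.Hol} (hav : IsAvatarG ι B f h)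
    (hav' : IsAvatarG ι B f h') : h = h' :=
  B.qexp_injective (hav.trans hav'.symm)

theorem IsAvatarG.injective {f f' : FGK K S₀} {h : B.Hol} (hav : IsAvatarG ι B f h)
    (hav' : IsAvatarG ι B f' h) : f = f' :=
  Subtype.ext (ΦK_injective ι (hav.symm.trans hav'))

theorem isAvatarG_zero : IsAvatarG ι B (0 : FGK K S₀) 0 := by
  show B.qexp 0 = ΦK ι M ((0 : FGK K S₀) : LaurentSeries K)
  simp

theorem isAvatarG_one : IsAvatarG ι B (1 : FGK K S₀) 1 := by
  show B.qexp 1 = ΦK ι M ((1 : FGK K S₀) : LaurentSeries K)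
  simp

theorem IsAvatarG.mul {f f' : FGK K S₀} {h h' : B.Hol} (hav : IsAvatarG ι B f h)
    (hav' : IsAvatarG ι B f' h') : IsAvatarG ι B (f * f') (h * h') := by
  show B.qexp (h * h') = ΦK ι M ((f * f' : FGK K S₀) : LaurentSeries K)
  rw [map_mul, hav, hav', ← map_mul]
  rfl

theorem IsAvatarG.add {f f' : FGK K S₀} {h h' : B.Hol} (hav : IsAvatarG ι B f h)
    (hav' : IsAvatarG ι B f' h') : IsAvatarG ι B (f + f') (h + h') := by
  show B.qexp (h + h') = ΦK ι M ((f + f' : FGK K S₀) : LaurentSeries K)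
  rw [map_add, hav, hav', ← map_add]
  rfl

theorem IsAvatarG.pow {f : FGK K S₀} {h : B.Hol} (hav : IsAvatarG ι B f h) (n : ℕ) :
    IsAvatarG ι B (f ^ n) (h ^ n) := by
  induction n with
  | zero => simpa using isAvatarG_one
  | succ n ih => rw [pow_succ, pow_succ]; exact ih.mul hav

theorem IsAvatarG.eq_zero_iff {f : FGK K S₀} {h : B.Hol} (hav : IsAvatarG ι B f h) :
    h = 0 ↔ f = 0 :=
  ⟨fun h0 => hav.injective (h0 ▸ isAvatarG_zero), fun f0 => hav.unique (f0 ▸ isAvatarG_zero)⟩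

/-- clearing denominators: `h * e(t) = e(r)` when `f = r / t` -/
theorem IsAvatarG.mul_bridgeGK {f : FGK K S₀} {h : B.Hol} (hav : IsAvatarG ι B f h)
    {r t : RGK K S₀} (ht : t ≠ 0) (hf : f = inclRGK K S₀ r / inclRGK K S₀ t) :
    h * bridgeGK ι B t = bridgeGK ι B r := by
  have ht' : inclRGK K S₀ t ≠ 0 := fun h0 =>
    ht (inclRGK_injective K S₀ (h0.trans (map_zero _).symm))
  have h1 : f * inclRGK K S₀ t = inclRGK K S₀ r := by
    rw [hf, div_mul_cancel₀ _ ht']
  exact (hav.mul (isAvatarG_inclRGK t)).unique (h1 ▸ isAvatarG_inclRGK r)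

/-- **The embeddings in terms of the avatar**: `σ_g f = E (h ∘ g⁻¹)`. -/
theorem IsAvatarG.sigmaGG_eq {f : FGK K S₀} {h : B.Hol} (hav : IsAvatarG ι B f h)
    (X : GenExpansion B) (g : SL(2, ℤ)) : sigmaGG ι B X g f = X.E (B.compH g⁻¹ h) := by
  obtain ⟨r, t, ht, hf⟩ := exists_div_inclRGK K S₀ f
  have hmul := hav.mul_bridgeGK ht hf
  have ht' : X.E (B.compH g⁻¹ (bridgeGK ι B t)) ≠ 0 := by
    intro h0
    apply ht
    apply sGG_injective ι B X g
    rw [sGG_apply, h0, map_zero]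
  rw [hf, map_div₀, sigmaGG_inclRGK, sigmaGG_inclRGK, ← hmul, map_mul, map_mul,
    mul_div_assoc, div_self ht', mul_one]

theorem IsAvatarG.sigmaXG_mk_eq {f : FGK K S₀} {h : B.Hol} (hav : IsAvatarG ι B f h)
    (X : GenExpansion B) (g : SL(2, ℤ)) :
    sigmaXG ι B X (g : XG Γ) f = X.E (B.compH g⁻¹ h) := by
  rw [sigmaXG_mk]
  exact hav.sigmaGG_eq X g

end Avatar

/-! ### The dictionary, hard direction -/

section Dict

variable {K : Type*} [Field K] [Algebra ℚ K] (ι : K →+* ℂ)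
variable {S₀ : Set (LaurentSeries ℚ)} {hj : jq ∈ S₀}
variable {M : ℕ} [NeZero M] {Γ : Subgroup SL(2, ℤ)}

theorem permG_pow_apply (γ : SL(2, ℤ)) (e : ℕ) (g : SL(2, ℤ)) :
    (permG Γ γ ^ e) (g : XG Γ) = ((γ ^ e * g : SL(2, ℤ)) : XG Γ) := by
  induction e with
  | zero => simp
  | succ n ih =>
    rw [pow_succ', Equiv.Perm.mul_apply, ih, pow_succ', mul_assoc]
    rfl

/-- if `perm_{ε⁻¹} ^ e` fixes the coset of `g` then `g⁻¹ ε ^ e g ∈ Γ` -/
theorem conj_mem_of_permG_pow_apply_eq {ε g : SL(2, ℤ)} {e : ℕ}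
    (h : (permG Γ ε⁻¹ ^ e) (g : XG Γ) = (g : XG Γ)) :
    g⁻¹ * ε ^ e * g ∈ Γ := by
  rw [permG_pow_apply] at h
  have h1 := QuotientGroup.eq.mp h
  have h2 : ((ε⁻¹) ^ e * g)⁻¹ * g = g⁻¹ * ε ^ e * g := by
    rw [mul_inv_rev, inv_pow, inv_inv]
  rwa [h2] at h1

variable (B : GenBase M Γ (GenField.ofRat S₀ hj))

/-- `h` is invariant under the special elements (finite order or trace `2`) of `Γ` -/
def IsUnramifiedG (h : B.Hol) : Prop :=
  ∀ γ : SL(2, ℤ), γ ∈ Γ → IsSpecialElt γ → B.compH γ h = h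

variable {B}

theorem IsUnramifiedG.compH_pow_eq {h : B.Hol} (hinv : IsUnramifiedG B h) {ε g : SL(2, ℤ)}
    {e : ℕ} (hε : IsSpecialElt (ε ^ e)) (hmem : g⁻¹ * ε ^ e * g ∈ Γ) :
    B.compH (ε ^ e) (B.compH g⁻¹ h) = B.compH g⁻¹ h := by
  have h1 := hinv _ hmem (hε.conj g)
  rw [← GenBase.compH_mul]
  have h2 : g⁻¹ * ε ^ e = (g⁻¹ * ε ^ e * g) * g⁻¹ := by group
  rw [h2, GenBase.compH_mul, h1]

variable [IsAlgClosed K] [Finite (XG Γ)]

/-- **DICT-hard, local form**: for local data constructed from an expansion with rotation data for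
`ε` (all of whose powers are special), the order at every place `placeOf x` of a function with
avatar `h ^ m`, `h` unramified, is divisible by `m`. -/
theorem dvd_ord_placeOf_mkLocalDataG (X : GenExpansion B) (ε : SL(2, ℤ)) (R : GenRotData B X ε)
    (t : FGK K S₀) (u : LaurentSeries ℂ) (ht : ∀ g : SL(2, ℤ), sigmaGG ι B X g t = u)
    (hu : u.order = (R.m : ℤ))
    (E : IntermediateField K (FGK K S₀)) (hE : E ≤ K⟮t⟯) [FiniteDimensional E (FGK K S₀)]
    (hrank : Module.finrank E (FGK K S₀) = Nat.card (XG Γ))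
    (hε : ∀ e : ℕ, IsSpecialElt (ε ^ e))
    {h : B.Hol} (hinv : IsUnramifiedG B h) {f : FGK K S₀} {m : ℕ}
    (hav : IsAvatarG ι B f (h ^ m)) (x : XG Γ) :
    (m : ℤ) ∣ (H117.placeOf (mkLocalDataG ι B X ε R t u ht hu) x).ord f := by
  haveI : CharZero K := algebraRat.charZero K
  set L := mkLocalDataG ι B X ε R t u ht hu with hL
  obtain ⟨g, rfl⟩ := QuotientGroup.mk_surjective x
  set w := H117.placeOf L (g : XG Γ) with hw
  set e : ℕ := (w.ord t).toNat with he
  have hpos : 0 < w.ord t := H117.ord_t_pos L _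
  have hecast : (e : ℤ) = w.ord t := Int.toNat_of_nonneg hpos.le
  have he0 : (e : ℤ) ≠ 0 := by rw [hecast]; exact hpos.ne'
  -- the orbit
  have hfix : (permG Γ ε⁻¹ ^ e) (g : XG Γ) = (g : XG Γ) :=
    perm_pow_ord_t_apply L E hE hrank (g : XG Γ)
  have hmem := conj_mem_of_permG_pow_apply_eq hfix
  -- the rotation
  set H : B.Hol := B.compH g⁻¹ h with hH
  have hHinv : B.compH (ε ^ e) H = H := hinv.compH_pow_eq (hε e) hmem
  have hdvd : (R.m : ℤ) ∣ (e : ℤ) * (X.E H).order := rot_dvd_of_compH_pow_eqG B X ε R H e hHinv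
  -- the multiplicity
  have hmult : (H117.mult L (g : XG Γ) : ℤ) * w.ord t = (R.m : ℤ) := H117.mult_mul_ord_t L _
  have hk0 : (H117.mult L (g : XG Γ) : ℤ) ≠ 0 := by
    exact_mod_cast (H117.mult_pos L (g : XG Γ)).ne'
  have hdvd2 : (H117.mult L (g : XG Γ) : ℤ) ∣ (X.E H).order := by
    rw [← hmult, ← hecast, mul_comm] at hdvd
    exact (mul_dvd_mul_iff_left he0).mp hdvd
  obtain ⟨k, hk⟩ := hdvd2
  -- the order of `f`
  have hσ : L.σ (g : XG Γ) f = X.E H ^ m := by
    show sigmaXG ι B X (g : XG Γ) f = _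
    rw [hav.sigmaXG_mk_eq X g, map_pow, map_pow]
  have hord : (L.σ (g : XG Γ) f).order = (m : ℤ) * (X.E H).order := by
    rw [hσ, HahnSeries.order_pow, nsmul_eq_mul]
  have h1 := H117.order_eq L (g : XG Γ) f
  rw [hord, hk] at h1
  refine ⟨k, ?_⟩
  have h2 : (H117.mult L (g : XG Γ) : ℤ) * w.ord f = (H117.mult L (g : XG Γ) : ℤ) * (m * k) := by
    rw [← h1]; ring
  exact mul_left_cancel₀ hk0 h2

omit [IsAlgClosed K] [Finite (XG Γ)] in
theorem adjoin_jGK_le_sub (a : K) :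
    K⟮jGK K hj⟯ ≤ K⟮jGK K hj - algebraMap K (FGK K S₀) a⟯ := by
  rw [IntermediateField.adjoin_le_iff, Set.singleton_subset_iff]
  have h := add_mem
    (IntermediateField.mem_adjoin_simple_self K (jGK K hj - algebraMap K (FGK K S₀) a))
    (IntermediateField.algebraMap_mem K⟮jGK K hj - algebraMap K (FGK K S₀) a⟯ a)
  rwa [sub_add_cancel] at h

omit [IsAlgClosed K] [Finite (XG Γ)] in
theorem adjoin_jGK_le_inv : K⟮jGK K hj⟯ ≤ K⟮(jGK K hj)⁻¹⟯ := by
  rw [IntermediateField.adjoin_le_iff, Set.singleton_subset_iff]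
  have h := inv_mem (IntermediateField.mem_adjoin_simple_self K (jGK K hj)⁻¹)
  rwa [inv_inv] at h

variable (D : GenData M Γ (GenField.ofRat S₀ hj))

/-- **Every place of `K·ℚ(S₀) / K` is analytic**: it is induced by an embedding `σ_x` of the local
data at `∞` or over a finite point `a`. -/
theorem exists_placeOf_eqG (w : Place K (FGK K S₀)) :
    (∃ x : XG Γ, H117.placeOf (dataInfG ι D.core) x = w) ∨
      ∃ (a : K) (x : XG Γ), H117.placeOf (dataFinG ι D.core a) x = w := by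
  haveI : CharZero K := algebraRat.charZero K
  haveI := finiteDimensional_adjoin_jGK ι D
  have hrank := finrank_adjoin_jGK ι D
  rcases sub_exists_point (jGK K hj) w with h | ⟨a, ha⟩
  · left
    have h' : 0 < w.ord (jGK K hj)⁻¹ := by
      rw [Place.ord_inv]; omega
    exact H117.exists_placeOf_eq (dataInfG ι D.core) K⟮jGK K hj⟯ adjoin_jGK_le_inv hrank w h'
  · right
    exact ⟨a, H117.exists_placeOf_eq (dataFinG ι D.core a) K⟮jGK K hj⟯ (adjoin_jGK_le_sub a)
      hrank w ha⟩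

variable {ι D}

/-- **DICT-hard.**  Let `f` be an element of `K·ℚ(S₀)` whose analytic avatar is `h ^ m`, where
`h : Hol` is invariant under all special elements (finite order or trace `2`) of `Γ`.  Then
`m ∣ ord_w f` for every place `w` of `K·ℚ(S₀) / K`. -/
theorem dvd_ord_of_isAvatar_powG {h : D.base.Hol} (hinv : IsUnramifiedG D.base h)
    {f : FGK K S₀} {m : ℕ} (hav : IsAvatarG ι D.base f (h ^ m))
    (w : Place K (FGK K S₀)) : (m : ℤ) ∣ w.ord f := by
  haveI := finiteDimensional_adjoin_jGK ι D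
  have hrank := finrank_adjoin_jGK ι D
  rcases exists_placeOf_eqG ι D w with ⟨x, rfl⟩ | ⟨a, x, rfl⟩
  · exact dvd_ord_placeOf_mkLocalDataG ι D.base.qexpExpansion ModularGroup.T D.core.infRot
      (jGK K hj)⁻¹ (D.base.qexp D.base.JH)⁻¹
      (fun g => by rw [map_inv₀, sigmaGG_jGK]; rfl)
      (by
        rw [RotRel.order_inv' D.base.qexp_JH_ne_zero, D.base.order_qexp_JH, neg_neg]
        rfl)
      K⟮jGK K hj⟯ adjoin_jGK_le_inv hrank isSpecialElt_T_pow hinv hav x
  · exact dvd_ord_placeOf_mkLocalDataG ι (pointAtG ι D.core a).X (epsAt ι a)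
      (pointAtG ι D.core a).R
      (jGK K hj - algebraMap K (FGK K S₀) a) _
      (fun g => sigmaGG_sub ι D.core (pointAtG ι D.core a) g) (pointAtG ι D.core a).order_J
      K⟮jGK K hj⟯ (adjoin_jGK_le_sub a) hrank (isSpecialElt_epsAt_pow ι a) hinv hav x

end Dict

/-! ### The dictionary, easy direction -/

section Easy

variable {K : Type*} [Field K] [Algebra ℚ K] (ι : K →+* ℂ)
variable {S₀ : Set (LaurentSeries ℚ)} {hj : jq ∈ S₀}
variable {M : ℕ} [NeZero M] {Γ : Subgroup SL(2, ℤ)} (B : GenBase M Γ (GenField.ofRat S₀ hj))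
variable (hB : B.IsHolo)

/-- the embedding "Taylor expansion at `τ` of the avatar" -/
def sigmaTauG (τ : ℍ) : FGK K S₀ →+* LaurentSeries ℂ :=
  sigmaGG ι B (B.taylorExpansion hB τ) 1

variable {ι B}

theorem IsAvatarG.sigmaTauG_eq {f : FGK K S₀} {h : B.Hol} (hav : IsAvatarG ι B f h) (τ : ℍ) :
    sigmaTauG ι B hB τ f = (B.taylorExpansion hB τ).E h := by
  rw [sigmaTauG, hav.sigmaGG_eq, inv_one, B.compH_one]

theorem order_taylorExpansionG {h : B.Hol} (hh : h ≠ 0) (τ : ℍ) :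
    ((B.taylorExpansion hB τ).E h).order = ((ordAt τ (h : ℍ → ℂ)).toNat : ℤ) := by
  have h0 : B.toHolo hB h ≠ 0 := fun h1 =>
    hh (B.toHolo_injective hB (h1.trans (map_zero _).symm))
  rw [GenBase.taylorExpansion_E, order_laurentAt_algebraMap τ h0]
  rfl

theorem IsAvatarG.order_sigmaTauG {f : FGK K S₀} {h : B.Hol} (hav : IsAvatarG ι B f h)
    (hh : h ≠ 0) (τ : ℍ) :
    (sigmaTauG ι B hB τ f).order = ((ordAt τ (h : ℍ → ℂ)).toNat : ℤ) := by
  rw [hav.sigmaTauG_eq hB τ, order_taylorExpansionG hB hh τ]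

variable (ι B)

theorem eord_sigmaTauG_const (τ : ℍ) (c : K) :
    0 ≤ H117.eord (sigmaTauG ι B hB τ) (algebraMap K (FGK K S₀) c) := by
  show 0 ≤ (sigmaGG ι B (B.taylorExpansion hB τ) 1 (algebraMap K (FGK K S₀) c)).order
  rw [sigmaGG_algebraMap, HahnSeries.order_C]

theorem JH_sub_constH_ne_zero (c : ℂ) : B.JH - B.constH c ≠ 0 := by
  intro h0
  have h1 : B.JH = B.constH c := sub_eq_zero.mp h0
  have h2 := B.order_qexp_JH
  rw [h1] at h2
  have h3 : (B.qexp (B.constH c)).order = 0 := by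
    show (B.qexp ⟨_, B.const_mem c⟩).order = 0
    rw [B.qexp_const, HahnSeries.order_C]
  rw [h3] at h2
  have hN : (0 : ℤ) < M := by exact_mod_cast Nat.pos_of_ne_zero (NeZero.ne M)
  omega

theorem sigmaTauG_jGK_sub (τ : ℍ) (a : K) :
    sigmaTauG ι B hB τ (jGK K hj - algebraMap K (FGK K S₀) a)
      = (B.taylorExpansion hB τ).E (B.JH - B.constH (ι a)) := by
  rw [sigmaTauG, map_sub, sigmaGG_jGK, sigmaGG_algebraMap, map_sub,
    (B.taylorExpansion hB τ).const]

theorem exists_eord_sigmaTauG_ne_zero (τ : ℍ) (a : K) (ha : ι a = jFun τ) :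
    ∃ t : FGK K S₀, H117.eord (sigmaTauG ι B hB τ) t ≠ 0 := by
  refine ⟨jGK K hj - algebraMap K (FGK K S₀) a, ?_⟩
  show (sigmaTauG ι B hB τ (jGK K hj - algebraMap K (FGK K S₀) a)).order ≠ 0
  rw [sigmaTauG_jGK_sub, order_taylorExpansionG hB (JH_sub_constH_ne_zero B (ι a)) τ]
  have hne := JH_sub_constH_ne_zero B (ι a)
  set g : B.Hol := B.JH - B.constH (ι a) with hg
  have hmd : MDiff (g : ℍ → ℂ) := hB.mdiff _ g.2
  have hg0 : (g : ℍ → ℂ) ≠ 0 := fun h => hne (Subtype.ext h)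
  have htop : ordAt τ (g : ℍ → ℂ) ≠ ⊤ := ordAt_ne_top hmd hg0 τ
  have hval : (g : ℍ → ℂ) τ = 0 := by
    show B.G jBar τ - ι a = 0
    rw [hB.G_j, ha, sub_self]
  have hz : ordAt τ (g : ℍ → ℂ) ≠ 0 := fun h => (ordAt_eq_zero_iff hmd τ).mp h hval
  intro h0
  have h1 : (ordAt τ (g : ℍ → ℂ)).toNat = 0 := by exact_mod_cast h0
  rcases (ENat.toNat_eq_zero).mp h1 with h | h
  · exact hz h
  · exact htop h

/-- **The place of `K·ℚ(S₀) / K` at a point `τ ∈ ℍ`** with `j(τ) = ι a`. -/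
def placeAtTauG (τ : ℍ) (a : K) (ha : ι a = jFun τ) : Place K (FGK K S₀) :=
  H117.placeOfEmb (sigmaTauG ι B hB τ) (eord_sigmaTauG_const ι B hB τ)
    (exists_eord_sigmaTauG_ne_zero ι B hB τ a ha)

theorem exists_mult_placeAtTauG (τ : ℍ) (a : K) (ha : ι a = jFun τ) :
    ∃ k : ℕ, 0 < k ∧ ∀ f : FGK K S₀,
      (sigmaTauG ι B hB τ f).order = k * (placeAtTauG ι B hB τ a ha).ord f :=
  H117.exists_mult (sigmaTauG ι B hB τ) _ _

variable {ι B}

/-- `ord_τ h = k · ord_w f` for the avatar `h` of `f`. -/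
theorem IsAvatarG.exists_ordAt_eq {f : FGK K S₀} {h : B.Hol} (hav : IsAvatarG ι B f h)
    (hh : h ≠ 0) (τ : ℍ) (a : K) (ha : ι a = jFun τ) :
    ∃ k : ℕ, 0 < k ∧
      ((ordAt τ (h : ℍ → ℂ)).toNat : ℤ) = k * (placeAtTauG ι B hB τ a ha).ord f := by
  obtain ⟨k, hk, hkf⟩ := exists_mult_placeAtTauG ι B hB τ a ha
  exact ⟨k, hk, by rw [← hkf f, hav.order_sigmaTauG hB hh τ]⟩

include hB in
/-- **DICT-easy.**  If `m ∣ ord_w f` at every place `w` of `K·ℚ(S₀) / K`, then `m` divides the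
order of vanishing of the avatar `h` of `f` at every `τ ∈ ℍ` with `j(τ) ∈ ι(K)`. -/
theorem IsAvatarG.exists_ordAt_eq_mul {f : FGK K S₀} {h : B.Hol} (hav : IsAvatarG ι B f h)
    (hh : h ≠ 0) {m : ℕ} (hdvd : ∀ w : Place K (FGK K S₀), (m : ℤ) ∣ w.ord f)
    (τ : ℍ) (a : K) (ha : ι a = jFun τ) :
    ∃ k : ℕ, ordAt τ (h : ℍ → ℂ) = ((m * k : ℕ) : ℕ∞) := by
  obtain ⟨k, -, hk⟩ := hav.exists_ordAt_eq hB hh τ a ha
  have hmd : MDiff (h : ℍ → ℂ) := hB.mdiff _ h.2
  have hh0 : (h : ℍ → ℂ) ≠ 0 := fun h0 => hh (Subtype.ext h0)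
  have htop : ordAt τ (h : ℍ → ℂ) ≠ ⊤ := ordAt_ne_top hmd hh0 τ
  have h1 : (m : ℤ) ∣ ((ordAt τ (h : ℍ → ℂ)).toNat : ℤ) := by
    rw [hk]
    exact Dvd.dvd.mul_left (hdvd _) _
  obtain ⟨l, hl⟩ := Int.natCast_dvd_natCast.mp h1
  refine ⟨l, ?_⟩
  rw [← hl, ENat.natCast_toNat htop]

end Easy

end Fermat.Agent.S48.H282
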