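import Fermat.Agent.S48.H282.DictK
import Fermat.Agent.S48.H882.K3Fin
import Fermat.Agent.S48.H332.F1Inst
import Fermat.Agent.S29.H282.DictC

/-!
# Tower A1 / A1-KUM, piece K3 — the two inputs DTO and DFROM of `H882.pieceK3G` (helper282)

GENERIC (any analytic input `D : H332.GenData M Γ (GenField.ofRat S₀ hj)`, `Γ` of finite index,
`F₀ = ℚ(S₀)`; the good functions are taken for a subgroup `Γ' ≤ Γ` of level `M` containing `T`):

* `mem_holN_of_goodG`  : a good function for a group of level `M` lies in `holN M`;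
* `dtoG_of_genData`    : **DTO** — `U ∈ holN M` invariant under the special elements (finite order
                         or trace `2`) of `Γ`, `U ^ p` with a `q`-expansion ⟹ `H882.DToG F₀ p U`;
* `dfromG_of_genData`  : **DFROM** — `H882.DFromG Γ' F₀ p`.

INSTANCE `(Γ₁(M), F1 M)` (package group `Γ = ±Γ₁(M)`, helper332's `f1Data M`):

* `dfromG_Gamma1 M p : H882.DFromG (Gamma1 M) (F1 M) p`;
* `dtoG_Gamma1 M p hpar hell hU : H882.DToG (F1 M) p U` for `U` twisted (`H882.IsTwistedG`) of a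
  character trivial on the parabolic (trace `±2`) and elliptic (finite order) elements.
-/

set_option autoImplicit false
set_option linter.style.haveILetI false
set_option linter.unusedVariables false
set_option linter.unusedSectionVars false

noncomputable section

open ModularCurve HahnSeries UpperHalfPlane AlgebraicCurve IntermediateField CongruenceSubgroup
open scoped MatrixGroups Manifold

namespace Fermat.Agent.S48.H282

open Fermat.Agent.S24 Fermat.Agent.S24.H997 Fermat.Agent.S24.Deg457 Fermat.Agent.S24.H624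
open Fermat.Agent.S24.H648 Fermat.Agent.S24.H708
open Fermat.Agent.S20.L1
open Fermat.Agent.S48.H332
open Fermat.Agent.S48.H882 (GoodG DToG DFromG IsTwistedG HasCharG hasQExp_of_goodG
  isMerInf_of_goodG)
open Fermat.Agent.S29.H282 (ΦK IsSpecialElt expGrowth_of_pow isBounded_mul_qh_pow_level
  infExp_level_of_hasQExp)

/-! ### Functions with a parabolic character lie in `holN M` -/

section Hol

variable {M : ℕ} [NeZero M] {Γ' : Subgroup SL(2, ℤ)}

/-- A holomorphic function with a character trivial on the parabolic elements of a group of level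
`M`, all of whose translates have at most exponential growth, lies in `holN M`. -/
theorem mem_holN_of_gHasChar (hΓ : HasLevel Γ' M) {χ : Γ' →* ℂˣ} (hχ : GParTriv χ)
    {U : ℍ → ℂ} (hmd : MDifferentiable 𝓘(ℂ) 𝓘(ℂ) U) (hh : GHasChar χ U)
    (hgr : ∀ g : SL(2, ℤ), ExpGrowth (fun τ => U (g • τ))) : U ∈ holN M := by
  refine ⟨hmd, fun g => ?_⟩
  have hhol : MDiff (compSL g U) := (precompSL g ⟨U, hmd⟩).2
  have hper : Function.Periodic (compSL g U ∘ ofComplex) (M : ℝ) :=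
    hh.periodic hχ g M (hΓ.conj_T_pow g)
  have hmer : IsMerInf M (compSL g U) := ⟨hhol, hper, isBounded_mul_qh_pow_level M (hgr g)⟩
  have hq := HasQExp.of_isMerInf hmer
  have hinf : InfExp M (compSL g U) (qexpFun M (compSL g U)) := fun τ => hq.hasSum τ
  exact hinf.mem_expRing

/-- **A good function for a group of level `M` lies in `holN M`.** -/
theorem mem_holN_of_goodG (hΓ : HasLevel Γ' M) {G : ℍ → ℂ} (hG : GoodG Γ' G) : G ∈ holN M := by
  obtain ⟨hmd, hinv, hgr⟩ := hG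
  have hh : GHasChar (1 : Γ' →* ℂˣ) G := by
    intro γ τ
    rw [hinv γ γ.2 τ]
    simp
  exact mem_holN_of_gHasChar hΓ (χ := 1) (fun _ _ => rfl) hmd hh hgr

end Hol

/-! ### Avatars from `q`-expansions -/

section Avatars

variable {S₀ : Set (LaurentSeries ℚ)} {hj : jq ∈ S₀}
variable {M : ℕ} [NeZero M] {Γ : Subgroup SL(2, ℤ)} (D : GenData M Γ (GenField.ofRat S₀ hj))

/-- a function of `holN M` whose `q`-expansion is `f` is an avatar of `f` -/
theorem isAvatarG_of_hasQExp {G : ℍ → ℂ} (hG : G ∈ holN M) {f : FGK ℂ S₀}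
    (hq : HasQExp 1 G (f : LaurentSeries ℂ)) :
    IsAvatarG (RingHom.id ℂ) D.base f (⟨G, hG⟩ : D.base.Hol) := by
  have hinf : InfExp M G (qExpand ℂ M (f : LaurentSeries ℂ)) := infExp_level_of_hasQExp hq
  have h1 : D.base.qexp (⟨G, hG⟩ : D.base.Hol) = qExpand ℂ M (f : LaurentSeries ℂ) :=
    (D.base_qexp_spec (⟨G, hG⟩ : D.base.Hol)).unique hinf
  show D.base.qexp (⟨G, hG⟩ : D.base.Hol) = ΦK (RingHom.id ℂ) M (f : LaurentSeries ℂ)
  rw [h1]
  show _ = qExpand ℂ M (coeffMap (RingHom.id ℂ) (f : LaurentSeries ℂ))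
  rw [coeffMap_id]

/-- the `q`-expansion of an avatar -/
theorem hasQExp_of_isAvatarG {h : D.base.Hol} {f : FGK ℂ S₀}
    (hav : IsAvatarG (RingHom.id ℂ) D.base f h)
    (hq : HasQExp 1 (h : ℍ → ℂ) (qexpFun 1 (h : ℍ → ℂ))) :
    qexpFun 1 (h : ℍ → ℂ) = (f : LaurentSeries ℂ) := by
  have hinf : InfExp M (h : ℍ → ℂ) (qExpand ℂ M (qexpFun 1 (h : ℍ → ℂ))) :=
    infExp_level_of_hasQExp hq
  have h1 : D.base.qexp h = qExpand ℂ M (qexpFun 1 (h : ℍ → ℂ)) :=
    (D.base_qexp_spec h).unique hinf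
  have h2 : D.base.qexp h = qExpand ℂ M (coeffMap (RingHom.id ℂ) (f : LaurentSeries ℂ)) := hav
  rw [coeffMap_id] at h2
  exact qExpand_injective M (h1.symm.trans h2)

end Avatars

/-! ### DTO and DFROM, generic -/

section Generic

variable {S₀ : Set (LaurentSeries ℚ)} {hj : jq ∈ S₀}
variable {M : ℕ} [NeZero M] {Γ : Subgroup SL(2, ℤ)} [Finite (XG Γ)]
variable (D : GenData M Γ (GenField.ofRat S₀ hj))
variable {F₀ : IntermediateField ℚ (LaurentSeries ℚ)}

include D in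
/-- **DTO, generic.**  `U ∈ holN M` invariant under the special elements of `Γ`, and `U ^ p` has a
`q`-expansion at `i∞`: then `p ∣ ord_w (qexp (U ^ p))` at every place `w` of `ℂ·F₀ / ℂ`. -/
theorem dtoG_of_genData (hF₀ : F₀ = IntermediateField.adjoin ℚ S₀) {p : ℕ} {U : ℍ → ℂ}
    (hU : U ∈ holN M)
    (hq : HasQExp 1 (fun τ => U τ ^ p) (qexpFun 1 (fun τ => U τ ^ p)))
    (hinv : ∀ γ ∈ Γ, IsSpecialElt γ → ∀ τ : ℍ, U (γ • τ) = U τ) : DToG F₀ p U := by
  subst hF₀
  intro f hf w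
  have hUp : (fun τ => U τ ^ p) ∈ holN M := pow_mem hU p
  have hav0 : IsAvatarG (RingHom.id ℂ) D.base f (⟨fun τ => U τ ^ p, hUp⟩ : D.base.Hol) :=
    isAvatarG_of_hasQExp D hUp (hf ▸ hq)
  have hav : IsAvatarG (RingHom.id ℂ) D.base f ((⟨U, hU⟩ : D.base.Hol) ^ p) := hav0
  have hunr : IsUnramifiedG D.base (⟨U, hU⟩ : D.base.Hol) := by
    intro γ hγ hsp
    apply Subtype.ext
    funext τ
    exact hinv γ hγ hsp τ
  exact dvd_ord_of_isAvatar_powG (ι := RingHom.id ℂ) (D := D) hunr hav w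

include D in
/-- **DFROM, generic.**  An element `f ≠ 0` of `ℂ·F₀` all of whose orders are divisible by `p`
is, up to the `p`-th power of a nonzero element of `ℂ·F₀`, the `q`-expansion of `V ^ p`, `V`
holomorphic on `ℍ`, `V ^ p` good for `Γ'` (any subgroup `Γ' ≤ Γ` containing `T`). -/
theorem dfromG_of_genData (hF₀ : F₀ = IntermediateField.adjoin ℚ S₀)
    {Γ' : Subgroup SL(2, ℤ)} (hle : Γ' ≤ Γ) (hT : ModularGroup.T ∈ Γ') (p : ℕ) [NeZero p] :
    DFromG Γ' F₀ p := by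
  subst hF₀
  intro f hf0 hdvd
  have hp : p ≠ 0 := NeZero.ne p
  -- write `f = r / t` with `r, t` polynomials in the generators
  obtain ⟨r, t, ht, hfrt⟩ := exists_div_inclRGK ℂ S₀ f
  have ht' : inclRGK ℂ S₀ t ≠ 0 := fun h0 =>
    ht (inclRGK_injective ℂ S₀ (h0.trans (map_zero _).symm))
  have hts : ((t : RGK ℂ S₀) : LaurentSeries ℂ) ≠ 0 := fun h0 => ht (Subtype.ext h0)
  -- the function with `q`-expansion `r * t ^ (p - 1) = f * t ^ p`
  set e : RGK ℂ S₀ := r * t ^ (p - 1) with he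
  set h : D.base.Hol := bridgeGK (RingHom.id ℂ) D.base e with hh
  have hgF : f * inclRGK ℂ S₀ t ^ p = inclRGK ℂ S₀ e := by
    rw [he, hfrt, map_mul, map_pow]
    have : p = (p - 1) + 1 := (Nat.succ_pred_eq_of_ne_zero hp).symm
    conv_lhs => rw [this, pow_succ]
    field_simp
  have hav : IsAvatarG (RingHom.id ℂ) D.base (f * inclRGK ℂ S₀ t ^ p) h := by
    rw [hgF]
    exact isAvatarG_inclRGK e
  have hFne : f * inclRGK ℂ S₀ t ^ p ≠ 0 := mul_ne_zero hf0 (pow_ne_zero p ht')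
  have hh0 : h ≠ 0 := fun h0 => hFne (hav.eq_zero_iff.mp h0)
  -- `h` is good for `Γ'`
  have hgood : GoodG Γ' (h : ℍ → ℂ) := by
    refine ⟨h.2.1, fun γ hγ τ => ?_, fun g => expGrowth_of_mem_holN h.2 g⟩
    have := compH_bridgeGK_of_mem (RingHom.id ℂ) D.base (hle hγ) e
    exact congrFun (congrArg Subtype.val this) τ
  have hqh : HasQExp 1 (h : ℍ → ℂ) (qexpFun 1 (h : ℍ → ℂ)) := hasQExp_of_goodG hT hgood
  have hqf : qexpFun 1 (h : ℍ → ℂ)
      = (f : LaurentSeries ℂ) * ((t : RGK ℂ S₀) : LaurentSeries ℂ) ^ p := by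
    rw [hasQExp_of_isAvatarG D hav hqh]
    rfl
  -- divisibility of the orders of `f * t ^ p`
  have hdvd' : ∀ w : Place ℂ (FGK ℂ S₀), (p : ℤ) ∣ w.ord (f * inclRGK ℂ S₀ t ^ p) := by
    intro w
    rw [w.ord_mul hf0 (pow_ne_zero p ht'), H117.ord_pow]
    exact dvd_add (hdvd w) (dvd_mul_right _ _)
  -- the root
  have hord : ∀ τ : ℍ, ∃ k : ℕ,
      analyticOrderAt ((h : ℍ → ℂ) ∘ ofComplex) (τ : ℂ) = ((p * k : ℕ) : ℕ∞) :=
    fun τ => hav.exists_ordAt_eq_mul D.base_isHolo hh0 hdvd' τ (Fermat.Agent.S20.L1.jFun τ) rfl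
  obtain ⟨V, hVmd, hVp⟩ := Fermat.Agent.S29.H751.exists_pow_eq_UHP h.2.1 p hp hord
  have hVG : (fun τ => V τ ^ p) = (h : ℍ → ℂ) := funext hVp
  refine ⟨((t : RGK ℂ S₀) : LaurentSeries ℂ), (inclRGK ℂ S₀ t).2, hts, V, hVmd, ?_, ?_⟩
  · rw [hVG]; exact hgood
  · rw [hVG]; exact hqf

end Generic

/-! ### The instance `(Γ₁(M), F1 M)` -/

section Instance

open Fermat.Agent.S48.F1

variable (M : ℕ) [NeZero M] (p : ℕ) [NeZero p]

/-- **DFROM for `(Γ₁(M), F1 M)`.** -/
theorem dfromG_Gamma1 : DFromG (Gamma1 M) (F1 M) p :=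
  dfromG_of_genData (f1Data M) rfl (Gamma1_le_pmGamma1 M) (T_mem_Gamma1 M) p

variable {M p}

theorem isSpecialElt_neg_or {γ : SL(2, ℤ)} (h : IsSpecialElt γ) :
    (∃ n : ℕ, 0 < n ∧ (-γ) ^ n = 1) ∨ ((-γ : SL(2, ℤ)) : Matrix (Fin 2) (Fin 2) ℤ).trace = -2 := by
  rcases h with ⟨n, hn, h⟩ | h
  · left
    refine ⟨2 * n, by omega, ?_⟩
    rw [pow_mul, neg_sq, ← pow_mul, mul_comm, pow_mul, h, one_pow]
  · right
    rw [Matrix.SpecialLinearGroup.coe_neg, Matrix.trace_neg, h]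

/-- A function with a character of `Γ₁(M)` trivial on the parabolic and elliptic elements is
invariant under the special elements of `±Γ₁(M)`. -/
theorem invariant_special_pmGamma1 {χ : Gamma1 M →* ℂˣ} (hpar : GParTriv χ)
    (hell : GEllTriv χ) {U : ℍ → ℂ} (hU : GHasChar χ U) (γ : SL(2, ℤ))
    (hγ : γ ∈ pmGamma1 M) (hsp : IsSpecialElt γ) (τ : ℍ) : U (γ • τ) = U τ := by
  rcases mem_pmGamma1_iff.mp hγ with h1 | h1
  · have h := hU ⟨γ, h1⟩ τ
    have hχ : χ ⟨γ, h1⟩ = 1 := by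
      rcases hsp with ⟨n, hn, h⟩ | h
      · exact hell ⟨γ, h1⟩ n hn (Subtype.ext (by simpa using h))
      · exact hpar ⟨γ, h1⟩ (Or.inl h)
    rw [hχ] at h
    simpa using h
  · have h := hU ⟨-γ, h1⟩ τ
    have hχ : χ ⟨-γ, h1⟩ = 1 := by
      rcases isSpecialElt_neg_or hsp with ⟨n, hn, h⟩ | h
      · exact hell ⟨-γ, h1⟩ n hn (Subtype.ext (by simpa using h))
      · exact hpar ⟨-γ, h1⟩ (Or.inr h)
    rw [hχ] at h
    have hsm : (-γ) • τ = γ • τ := ModularGroup.SL_neg_smul γ τ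
    simp only [hsm] at h
    simpa using h

/-- **DTO for `(Γ₁(M), F1 M)`**: for `U` twisted of a character trivial on the parabolic and
elliptic elements of `Γ₁(M)`. -/
theorem dtoG_Gamma1 {χ : Gamma1 M →* ℂˣ} (hpar : GParTriv χ) (hell : GEllTriv χ)
    {U : ℍ → ℂ} (hU : IsTwistedG (Gamma1 M) p χ U) : DToG (F1 M) p U := by
  have hp : p ≠ 0 := NeZero.ne p
  have hUh : U ∈ holN M :=
    mem_holN_of_gHasChar (hasLevel_Gamma1 M) hpar hU.mdiff hU.hasChar
      (fun g => expGrowth_of_pow hp (hU.pow_good.2.2 g))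
  exact dtoG_of_genData (f1Data M) rfl hUh (hasQExp_of_goodG (T_mem_Gamma1 M) hU.pow_good)
    (fun γ hγ hsp τ => invariant_special_pmGamma1 hpar hell hU.hasChar γ hγ hsp τ)

end Instance

end Fermat.Agent.S48.H282
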