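import Fermat.Agent.S48.H332.PkgDeg
import Fermat.Agent.S29.H282.CoreK

/-!
# Tower A1 / A1-KUM, K3 inputs (helper282) — the generic package over ANY coefficient field

helper332's PKG-GEN (`S48/H332/Pkg*.lean`) attaches to analytic input
`D : GenData M Γ (GenField.ofRat S₀ hj)` (avatars in `holN M` of a set `S₀ ∋ j` of RATIONAL Laurent
series, invariant under `Γ`, separating the cosets of `Γ`) the `LocalData` of the field
`ℚ̄·ℚ(S₀)` over `ℚ̄`.  Here the SAME analytic input is used to produce the `LocalData` of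

  `FGK K S₀ = laurentBaseChange K (ℚ(S₀))`

over ANY field `K` with an embedding `ι : K →+* ℂ` (the case needed for K3 is `K = ℂ`), exactly as
`S29/H282/{FracK,BridgeK,LocalK,CoreK,DegK}` did for `Γ₀(N)`:

* `RGK`, `inclRGK`, `liftGK`                    : the polynomial ring `K[S₀]` and its fraction field;
* `bridgeGK`                                    : `K[S₀] →+* Hol`, `qexp (e r) = ΦK ι M r`;
* `sigmaGG`, `sigmaXG`, `mkLocalDataG`          : the embeddings and `LocalData` from an expansion;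
* `dataInfG`, `dataFinG`                        : the local data at `∞` and over every `a : K`;
* `finiteDimensional_adjoin_jGK`, `finrank_adjoin_jGK` : `[FGK : K(j)] = [SL₂(ℤ) : Γ]`.
-/

set_option autoImplicit false
set_option linter.style.haveILetI false
set_option linter.unusedVariables false
set_option linter.unusedSectionVars false

noncomputable section

open ModularCurve HahnSeries UpperHalfPlane IntermediateField
open scoped MatrixGroups

namespace Fermat.Agent.S48.H282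

open Fermat.Agent.S24 Fermat.Agent.S24.H997 Fermat.Agent.S24.Deg457
open Fermat.Agent.S48.H332
open Fermat.Agent.S29.H282 (ΦK ΦK_injective ΦK_coeff ΦK_algebraMap ι_algebraMap epsAt)

/-! ### The field and its polynomial ring -/

section Frac

variable (K : Type*) [Field K] [Algebra ℚ K] (S₀ : Set (LaurentSeries ℚ))

/-- The generators `S₀`, with coefficients in `K`. -/
def gensK : Set (LaurentSeries K) := ⇑(coeffEmb K) '' S₀

/-- The field `K·ℚ(S₀) ⊆ K((q))` (as a type). -/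
abbrev FGK : Type _ := ↥(laurentBaseChange K (IntermediateField.adjoin ℚ S₀))

/-- `K·ℚ(S₀)` is generated over `K` by `S₀`. -/
theorem fgK_eq_adjoin :
    laurentBaseChange K (IntermediateField.adjoin ℚ S₀)
      = IntermediateField.adjoin K (gensK K S₀) := by
  apply le_antisymm
  · rw [laurentBaseChange, IntermediateField.adjoin_le_iff]
    rintro _ ⟨x, hx, rfl⟩
    have hx' : x ∈ IntermediateField.adjoin ℚ S₀ := hx
    induction hx' using IntermediateField.adjoin_induction with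
    | mem y hy => exact IntermediateField.subset_adjoin K _ ⟨y, hy, rfl⟩
    | algebraMap c =>
        have h : coeffEmb K (algebraMap ℚ (LaurentSeries ℚ) c)
            = algebraMap K (LaurentSeries K) (algebraMap ℚ K c) := by
          rw [coeffEmb, coeffMap_algebraMap']
        show coeffEmb K (algebraMap ℚ (LaurentSeries ℚ) c) ∈ _
        rw [h]
        exact IntermediateField.algebraMap_mem _ _
    | add y z _ _ hy hz =>
        show coeffEmb K (y + z) ∈ _
        rw [map_add]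
        exact add_mem (hy (by assumption)) (hz (by assumption))
    | inv y _ hy =>
        show coeffEmb K (y⁻¹) ∈ _
        rw [map_inv₀]
        exact inv_mem (hy (by assumption))
    | mul y z _ _ hy hz =>
        show coeffEmb K (y * z) ∈ _
        rw [map_mul]
        exact mul_mem (hy (by assumption)) (hz (by assumption))
  · rw [laurentBaseChange]
    exact IntermediateField.adjoin.mono _ _ _
      (Set.image_mono (IntermediateField.subset_adjoin ℚ _))

/-- The polynomial ring `K[S₀] ⊆ K((q))`. -/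
abbrev RGK : Subalgebra K (LaurentSeries K) := Algebra.adjoin K (gensK K S₀)

theorem RGK_le :
    RGK K S₀ ≤ (laurentBaseChange K (IntermediateField.adjoin ℚ S₀)).toSubalgebra := by
  rw [fgK_eq_adjoin]
  exact IntermediateField.algebra_adjoin_le_adjoin K (gensK K S₀)

/-- The inclusion `K[S₀] → K·ℚ(S₀)`. -/
def inclRGK : RGK K S₀ →ₐ[K] FGK K S₀ := Subalgebra.inclusion (RGK_le K S₀)

@[simp] theorem coe_inclRGK (r : RGK K S₀) :
    ((inclRGK K S₀ r : FGK K S₀) : LaurentSeries K) = r := rfl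

theorem inclRGK_injective : Function.Injective (inclRGK K S₀) :=
  Subalgebra.inclusion_injective (RGK_le K S₀)

theorem exists_div_inclRGK (f : FGK K S₀) :
    ∃ r t : RGK K S₀, t ≠ 0 ∧ f = inclRGK K S₀ r / inclRGK K S₀ t := by
  have hf : (f : LaurentSeries K) ∈ IntermediateField.adjoin K (gensK K S₀) := by
    rw [← fgK_eq_adjoin]; exact f.2
  obtain ⟨r, hr, s, hs, h⟩ := IntermediateField.mem_adjoin_iff_div.mp hf
  by_cases hs0 : s = 0
  · refine ⟨0, 1, one_ne_zero, ?_⟩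
    apply Subtype.ext
    rw [h, hs0, div_zero]
    simp
  · refine ⟨⟨r, hr⟩, ⟨s, hs⟩, fun h0 => hs0 (congrArg Subtype.val h0), ?_⟩
    apply Subtype.ext
    rw [h]
    simp

variable {S₀}

/-- A generator as an element of `K[S₀]`. -/
def genRK {s : LaurentSeries ℚ} (hs : s ∈ S₀) : RGK K S₀ :=
  ⟨coeffEmb K s, Algebra.subset_adjoin ⟨s, hs, rfl⟩⟩

/-- The `j`-function as an element of `K·ℚ(S₀)`. -/
def jGK (hj : jq ∈ S₀) : FGK K S₀ :=
  ⟨coeffEmb K jq, coeffEmb_mem_laurentBaseChange K (IntermediateField.subset_adjoin ℚ S₀ hj)⟩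

theorem inclRGK_genRK_j (hj : jq ∈ S₀) : inclRGK K S₀ (genRK K hj) = jGK K hj := rfl

theorem coe_jGK (hj : jq ∈ S₀) : ((jGK K hj : FGK K S₀) : LaurentSeries K) = JK K := rfl

section Lift

variable {K}
variable {L : Type*} [Field L]

/-- Extension of an injective ring hom `K[S₀] →+* L` to the fraction field `K·ℚ(S₀)`. -/
def liftGK (s : RGK K S₀ →+* L) (hs : Function.Injective s) : FGK K S₀ →+* L :=
  letI : Algebra (RGK K S₀) (FGK K S₀) := (inclRGK K S₀).toRingHom.toAlgebra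
  haveI : FaithfulSMul (RGK K S₀) (FGK K S₀) :=
    (faithfulSMul_iff_algebraMap_injective _ _).mpr (inclRGK_injective K S₀)
  haveI : IsFractionRing (RGK K S₀) (FGK K S₀) :=
    IsFractionRing.of_field _ _ fun z => by
      obtain ⟨r, t, -, h⟩ := exists_div_inclRGK K S₀ z
      exact ⟨r, t, h⟩
  IsFractionRing.lift hs

theorem liftGK_inclRGK (s : RGK K S₀ →+* L) (hs : Function.Injective s) (r : RGK K S₀) :
    liftGK s hs (inclRGK K S₀ r) = s r := by
  let _ : Algebra (RGK K S₀) (FGK K S₀) := (inclRGK K S₀).toRingHom.toAlgebra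
  have : FaithfulSMul (RGK K S₀) (FGK K S₀) :=
    (faithfulSMul_iff_algebraMap_injective _ _).mpr (inclRGK_injective K S₀)
  have : IsFractionRing (RGK K S₀) (FGK K S₀) :=
    IsFractionRing.of_field _ _ fun z => by
      obtain ⟨r, t, -, h⟩ := exists_div_inclRGK K S₀ z
      exact ⟨r, t, h⟩
  exact IsFractionRing.lift_algebraMap hs r

theorem liftGK_div (s : RGK K S₀ →+* L) (hs : Function.Injective s) (r t : RGK K S₀) :
    liftGK s hs (inclRGK K S₀ r / inclRGK K S₀ t) = s r / s t := by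
  rw [map_div₀, liftGK_inclRGK, liftGK_inclRGK]

theorem liftGK_algebraMap (s : RGK K S₀ →+* L) (hs : Function.Injective s) (c : K) :
    liftGK s hs (algebraMap K (FGK K S₀) c) = s (algebraMap K (RGK K S₀) c) := by
  rw [← liftGK_inclRGK s hs]
  congr 1

end Lift

end Frac

/-! ### The bridge -/

section Bridge

variable {K : Type*} [Field K] [Algebra ℚ K] (ι : K →+* ℂ)
variable {S₀ : Set (LaurentSeries ℚ)} {hj : jq ∈ S₀}
variable {M : ℕ} [NeZero M] {Γ : Subgroup SL(2, ℤ)} (B : GenBase M Γ (GenField.ofRat S₀ hj))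

/-- membership of a rational generator in the generating set of `GenField.ofRat` -/
theorem mem_ofRat_S {s : LaurentSeries ℚ} (hs : s ∈ S₀) :
    coeffEmb Kbar s ∈ (GenField.ofRat S₀ hj).S := ⟨s, hs, rfl⟩

/-- the avatar of a rational generator as an element of `Hol` -/
def GHQ {s : LaurentSeries ℚ} (hs : s ∈ S₀) : B.Hol := B.GH (mem_ofRat_S (hj := hj) hs)

theorem compH_GHQ_of_mem {s : LaurentSeries ℚ} (hs : s ∈ S₀) {g : SL(2, ℤ)} (hg : g ∈ Γ) :
    B.compH g (GHQ B hs) = GHQ B hs :=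
  B.compH_GH_of_mem _ hg

theorem GHQ_j : GHQ B hj = B.JH := rfl

theorem ΦK_genG {s : LaurentSeries ℚ} (hs : s ∈ S₀) :
    ΦK ι M (coeffEmb K s) = B.qexp (GHQ B hs) := by
  rw [GHQ, B.qexp_GH]
  show qExpand ℂ M (coeffMap ι (coeffEmb K s)) = qExpand ℂ M (coeffMap ιK (coeffEmb Kbar s))
  rw [coeffMap_coeffEmb', coeffMap_coeffEmb']

theorem ΦK_mem_rangeG {r : LaurentSeries K} (hr : r ∈ RGK K S₀) : ΦK ι M r ∈ B.qexp.range := by
  induction hr using Algebra.adjoin_induction with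
  | mem x hx =>
      obtain ⟨y, hy, rfl⟩ := hx
      exact ⟨GHQ B hy, (ΦK_genG ι B hy).symm⟩
  | algebraMap c =>
      exact ⟨B.constH (ι c), by rw [ΦK_algebraMap]; exact B.qexp_const _⟩
  | add _ _ _ _ hx hy => rw [map_add]; exact add_mem hx hy
  | mul _ _ _ _ hx hy => rw [map_mul]; exact mul_mem hx hy

/-- The bridge `e : K[S₀] →+* Hol`. -/
def bridgeGK : RGK K S₀ →+* B.Hol :=
  (B.qexpEquiv.symm : B.qexp.range →+* B.Hol).comp
    (((ΦK ι M).comp (RGK K S₀).val.toRingHom).codRestrict B.qexp.range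
      fun r => ΦK_mem_rangeG ι B r.2)

theorem qexp_bridgeGK (r : RGK K S₀) :
    B.qexp (bridgeGK ι B r) = ΦK ι M (r : LaurentSeries K) := by
  have h := B.qexpEquiv.apply_symm_apply
    ((((ΦK ι M).comp (RGK K S₀).val.toRingHom).codRestrict B.qexp.range
      fun r => ΦK_mem_rangeG ι B r.2) r)
  exact congrArg Subtype.val h

theorem bridgeGK_injective : Function.Injective (bridgeGK ι B) := by
  intro r r' h
  apply Subtype.ext
  apply ΦK_injective ι (N := M)
  rw [← qexp_bridgeGK, ← qexp_bridgeGK, h]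

theorem bridgeGK_algebraMap (c : K) :
    bridgeGK ι B (algebraMap K (RGK K S₀) c) = B.constH (ι c) := by
  apply B.qexp_injective
  rw [qexp_bridgeGK]
  show ΦK ι M (algebraMap K (LaurentSeries K) c) = _
  rw [ΦK_algebraMap]
  exact (B.qexp_const _).symm

theorem bridgeGK_genRK {s : LaurentSeries ℚ} (hs : s ∈ S₀) :
    bridgeGK ι B (genRK K hs) = GHQ B hs := by
  apply B.qexp_injective
  rw [qexp_bridgeGK]
  exact ΦK_genG ι B hs

theorem bridgeGK_genRK_j : bridgeGK ι B (genRK K hj) = B.JH := bridgeGK_genRK ι B hj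

/-- Every `e r` is `Γ`-invariant. -/
theorem compH_bridgeGK_of_mem {g : SL(2, ℤ)} (hg : g ∈ Γ) (r : RGK K S₀) :
    B.compH g (bridgeGK ι B r) = bridgeGK ι B r := by
  obtain ⟨r, hr⟩ := r
  induction hr using Algebra.adjoin_induction with
  | mem x hx =>
      obtain ⟨y, hy, rfl⟩ := hx
      have : (⟨coeffEmb K y, Algebra.subset_adjoin ⟨y, hy, rfl⟩⟩ : RGK K S₀) = genRK K hy := rfl
      rw [this, bridgeGK_genRK]
      exact compH_GHQ_of_mem B hy hg
  | algebraMap c =>
      have : (⟨algebraMap K (LaurentSeries K) c, Subalgebra.algebraMap_mem _ c⟩ : RGK K S₀)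
          = algebraMap K (RGK K S₀) c := rfl
      rw [this, bridgeGK_algebraMap]
      rfl
  | add x y hx hy ihx ihy =>
      have : (⟨x + y, add_mem hx hy⟩ : RGK K S₀) = ⟨x, hx⟩ + ⟨y, hy⟩ := rfl
      rw [this, RingHom.map_add, RingHom.map_add, ihx, ihy]
  | mul x y hx hy ihx ihy =>
      have : (⟨x * y, mul_mem hx hy⟩ : RGK K S₀) = ⟨x, hx⟩ * ⟨y, hy⟩ := rfl
      rw [this, RingHom.map_mul, RingHom.map_mul, ihx, ihy]

end Bridge

/-! ### `LocalData` from an expansion with rotation data -/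

section Local

variable {K : Type*} [Field K] [Algebra ℚ K] (ι : K →+* ℂ)
variable {S₀ : Set (LaurentSeries ℚ)} {hj : jq ∈ S₀}
variable {M : ℕ} [NeZero M] {Γ : Subgroup SL(2, ℤ)} (B : GenBase M Γ (GenField.ofRat S₀ hj))
variable (X : GenExpansion B)

/-- the ring hom `K[S₀] → ℂ((z))`, `r ↦ E (e r ∘ g⁻¹)` -/
def sGG (g : SL(2, ℤ)) : RGK K S₀ →+* LaurentSeries ℂ :=
  X.E.comp ((B.compH g⁻¹).comp (bridgeGK ι B))

theorem sGG_apply (g : SL(2, ℤ)) (r : RGK K S₀) :
    sGG ι B X g r = X.E (B.compH g⁻¹ (bridgeGK ι B r)) := rfl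

theorem sGG_injective (g : SL(2, ℤ)) : Function.Injective (sGG ι B X g) :=
  X.inj.comp ((B.compH_injective g⁻¹).comp (bridgeGK_injective ι B))

/-- the embedding `K·ℚ(S₀) → ℂ((z))` attached to `g` -/
def sigmaGG (g : SL(2, ℤ)) : FGK K S₀ →+* LaurentSeries ℂ :=
  liftGK (sGG ι B X g) (sGG_injective ι B X g)

theorem sigmaGG_inclRGK (g : SL(2, ℤ)) (r : RGK K S₀) :
    sigmaGG ι B X g (inclRGK K S₀ r) = X.E (B.compH g⁻¹ (bridgeGK ι B r)) :=
  liftGK_inclRGK _ _ r

theorem sigmaGG_algebraMap (g : SL(2, ℤ)) (c : K) :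
    sigmaGG ι B X g (algebraMap K (FGK K S₀) c) = HahnSeries.C (ι c) := by
  rw [sigmaGG, liftGK_algebraMap, sGG_apply, bridgeGK_algebraMap, GenBase.compH_constH, X.const]

theorem sigmaGG_jGK (g : SL(2, ℤ)) :
    sigmaGG ι B X g (jGK K hj) = X.E B.JH := by
  rw [← inclRGK_genRK_j, sigmaGG_inclRGK, bridgeGK_genRK_j, GenBase.compH_JH]

theorem sGG_mul_of_mem (g : SL(2, ℤ)) {δ : SL(2, ℤ)} (hδ : δ ∈ Γ) :
    sGG ι B X (g * δ) = sGG ι B X g := by
  ext1 r
  rw [sGG_apply, sGG_apply, mul_inv_rev, GenBase.compH_mul,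
    compH_bridgeGK_of_mem ι B (inv_mem hδ)]

theorem sigmaGG_mul_of_mem (g : SL(2, ℤ)) {δ : SL(2, ℤ)}
    (hδ : δ ∈ Γ) : sigmaGG ι B X (g * δ) = sigmaGG ι B X g := by
  unfold sigmaGG
  congr 1
  exact sGG_mul_of_mem ι B X g hδ

theorem sigmaGG_eq_of_mk_eq {g g' : SL(2, ℤ)}
    (h : (g : XG Γ) = (g' : XG Γ)) : sigmaGG ι B X g = sigmaGG ι B X g' := by
  have hmem : g⁻¹ * g' ∈ Γ := QuotientGroup.eq.mp h
  have := sigmaGG_mul_of_mem ι B X g hmem
  rw [mul_inv_cancel_left] at this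
  exact this.symm

/-- the embedding attached to a coset -/
def sigmaXG (x : XG Γ) : FGK K S₀ →+* LaurentSeries ℂ := sigmaGG ι B X (Quotient.out x)

theorem sigmaXG_mk (g : SL(2, ℤ)) : sigmaXG ι B X (g : XG Γ) = sigmaGG ι B X g :=
  sigmaGG_eq_of_mk_eq ι B X (QuotientGroup.out_eq' _)

theorem sigmaXG_injective : Function.Injective (sigmaXG (K := K) ι B X) := by
  intro x y hxy
  obtain ⟨g, rfl⟩ := QuotientGroup.mk_surjective x
  obtain ⟨g', rfl⟩ := QuotientGroup.mk_surjective y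
  rw [sigmaXG_mk, sigmaXG_mk] at hxy
  apply QuotientGroup.eq.mpr
  apply B.G_distinct
  rintro _ ⟨s, hs, rfl⟩ τ
  have h1 := congrArg (fun σ => σ (inclRGK K S₀ (genRK K hs))) hxy
  simp only [sigmaGG_inclRGK, bridgeGK_genRK] at h1
  have h2 := X.inj h1
  have h3 := congrArg (fun h : B.Hol => (h : ℍ → ℂ) (g' • τ)) h2
  simp only [GenBase.compH_apply] at h3
  rw [← mul_smul, ← mul_smul, inv_mul_cancel, one_smul] at h3
  exact h3

theorem rotRel_sigmaGG (ε : SL(2, ℤ)) (R : GenRotData B X ε) (g : SL(2, ℤ)) (f : FGK K S₀) :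
    RotRel R.ζ (sigmaGG ι B X g f) (sigmaGG ι B X (ε⁻¹ * g) f) := by
  have hζ : R.ζ ≠ 0 := R.hζ.ne_zero R.m_pos.ne'
  obtain ⟨r, t, -, rfl⟩ := exists_div_inclRGK K S₀ f
  rw [map_div₀, map_div₀]
  have key : ∀ r : RGK K S₀, RotRel R.ζ (sigmaGG ι B X g (inclRGK K S₀ r))
      (sigmaGG ι B X (ε⁻¹ * g) (inclRGK K S₀ r)) := by
    intro r
    rw [sigmaGG_inclRGK, sigmaGG_inclRGK, mul_inv_rev, inv_inv, GenBase.compH_mul]
    exact R.rot _
  exact (key r).div hζ (key t)

/-- `LocalData` from an expansion with rotation data. -/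
def mkLocalDataG (ε : SL(2, ℤ)) (R : GenRotData B X ε) (t : FGK K S₀) (u : LaurentSeries ℂ)
    (ht : ∀ g : SL(2, ℤ), sigmaGG ι B X g t = u) (hu : u.order = (R.m : ℤ)) :
    LocalData K (FGK K S₀) ℂ (XG Γ) t where
  m := R.m
  m_pos := R.m_pos
  ζ := R.ζ
  hζ := R.hζ
  ι := ι
  perm := permG Γ ε⁻¹
  σ := sigmaXG ι B X
  σ_inj := sigmaXG_injective ι B X
  σ_const x c := sigmaGG_algebraMap ι B X _ c
  σ_t_eq x y := by
    show sigmaGG ι B X _ t = sigmaGG ι B X _ t
    rw [ht, ht]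
  σ_t_order x := by
    show (sigmaGG ι B X _ t).order = _
    rw [ht, hu]
  σ_perm_order x f := by
    obtain ⟨g, rfl⟩ := QuotientGroup.mk_surjective x
    have h : permG Γ ε⁻¹ (g : XG Γ) = ((ε⁻¹ * g : SL(2, ℤ)) : XG Γ) := rfl
    rw [h, sigmaXG_mk, sigmaXG_mk]
    exact (rotRel_sigmaGG ι B X ε R g f).1
  σ_perm_leadingCoeff x f := by
    obtain ⟨g, rfl⟩ := QuotientGroup.mk_surjective x
    have h : permG Γ ε⁻¹ (g : XG Γ) = ((ε⁻¹ * g : SL(2, ℤ)) : XG Γ) := rfl
    rw [h, sigmaXG_mk, sigmaXG_mk]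
    exact (rotRel_sigmaGG ι B X ε R g f).2

@[simp] theorem mkLocalDataG_perm (ε : SL(2, ℤ)) (R : GenRotData B X ε) (t : FGK K S₀)
    (u : LaurentSeries ℂ) (ht : ∀ g : SL(2, ℤ), sigmaGG ι B X g t = u)
    (hu : u.order = (R.m : ℤ)) :
    (mkLocalDataG ι B X ε R t u ht hu).perm = permG Γ ε⁻¹ := rfl

@[simp] theorem mkLocalDataG_σ (ε : SL(2, ℤ)) (R : GenRotData B X ε) (t : FGK K S₀)
    (u : LaurentSeries ℂ) (ht : ∀ g : SL(2, ℤ), sigmaGG ι B X g t = u)
    (hu : u.order = (R.m : ℤ)) :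
    (mkLocalDataG ι B X ε R t u ht hu).σ = sigmaXG ι B X := rfl

@[simp] theorem mkLocalDataG_m (ε : SL(2, ℤ)) (R : GenRotData B X ε) (t : FGK K S₀)
    (u : LaurentSeries ℂ) (ht : ∀ g : SL(2, ℤ), sigmaGG ι B X g t = u)
    (hu : u.order = (R.m : ℤ)) :
    (mkLocalDataG ι B X ε R t u ht hu).m = R.m := rfl

end Local

/-! ### The local data at every point -/

section Core

variable {K : Type*} [Field K] [Algebra ℚ K] (ι : K →+* ℂ)
variable {S₀ : Set (LaurentSeries ℚ)} {hj : jq ∈ S₀}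
variable {M : ℕ} [NeZero M] {Γ : Subgroup SL(2, ℤ)} (A : GenCore M Γ (GenField.ofRat S₀ hj))

/-- the local data at `∞` -/
def dataInfG : LocalData K (FGK K S₀) ℂ (XG Γ) (jGK K hj)⁻¹ :=
  mkLocalDataG ι A.toGenBase A.toGenBase.qexpExpansion ModularGroup.T A.infRot (jGK K hj)⁻¹
    (A.qexp A.toGenBase.JH)⁻¹
    (fun g => by rw [map_inv₀, sigmaGG_jGK]; rfl)
    (by
      rw [RotRel.order_inv' A.toGenBase.qexp_JH_ne_zero, A.toGenBase.order_qexp_JH, neg_neg]
      rfl)

theorem sigmaGG_sub {a : K} {ε : SL(2, ℤ)} (Q : GenPointData A.toGenBase (ι a) ε)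
    (g : SL(2, ℤ)) :
    sigmaGG ι A.toGenBase Q.X g (jGK K hj - algebraMap K (FGK K S₀) a)
      = Q.X.E (A.toGenBase.JH - A.toGenBase.constH (ι a)) := by
  rw [map_sub, sigmaGG_jGK, sigmaGG_algebraMap, map_sub, Q.X.const]

/-- the local data attached to point data over `a` -/
def dataOfPointG {a : K} {ε : SL(2, ℤ)} (Q : GenPointData A.toGenBase (ι a) ε) :
    LocalData K (FGK K S₀) ℂ (XG Γ) (jGK K hj - algebraMap K (FGK K S₀) a) :=
  mkLocalDataG ι A.toGenBase Q.X ε Q.R _ _ (fun g => sigmaGG_sub ι A Q g) Q.order_J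

/-- all the embeddings `σ_x` agree on `K(j)` -/
theorem sigmaXG_eq_on_adjoin (X : GenExpansion A.toGenBase) (x y : XG Γ) {f : FGK K S₀}
    (hf : f ∈ IntermediateField.adjoin K {jGK K hj}) :
    sigmaXG ι A.toGenBase X x f = sigmaXG ι A.toGenBase X y f := by
  induction hf using IntermediateField.adjoin_induction with
  | mem z hz =>
      rw [Set.mem_singleton_iff] at hz
      subst hz
      show sigmaGG ι A.toGenBase X _ (jGK K hj) = sigmaGG ι A.toGenBase X _ (jGK K hj)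
      rw [sigmaGG_jGK, sigmaGG_jGK]
  | algebraMap c =>
      show sigmaGG ι A.toGenBase X _ _ = sigmaGG ι A.toGenBase X _ _
      rw [sigmaGG_algebraMap, sigmaGG_algebraMap]
  | add z w _ _ hz hw => rw [map_add, map_add, hz, hw]
  | inv z _ hz => rw [map_inv₀, map_inv₀, hz]
  | mul z w _ _ hz hw => rw [map_mul, map_mul, hz, hw]

include ι A in
/-- lower bound for the degree: `|SL₂(ℤ)/Γ| ≤ [K·ℚ(S₀) : K(j)]`. -/
theorem card_le_finrankG
    [FiniteDimensional ↥(IntermediateField.adjoin K {jGK K hj}) (FGK K S₀)] :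
    Nat.card (XG Γ) ≤ Module.finrank ↥(IntermediateField.adjoin K {jGK K hj}) (FGK K S₀) := by
  classical
  set E := IntermediateField.adjoin K {jGK K hj} with hE
  let X := A.toGenBase.qexpExpansion
  let x0 : XG Γ := ((1 : SL(2, ℤ)) : XG Γ)
  let ψ : ↥E →+* LaurentSeries ℂ :=
    (sigmaXG ι A.toGenBase X x0).comp (algebraMap ↥E (FGK K S₀))
  letI : Algebra ↥E (LaurentSeries ℂ) := ψ.toAlgebra
  let a : XG Γ → (FGK K S₀ →ₐ[↥E] LaurentSeries ℂ) := fun x =>
    { sigmaXG ι A.toGenBase X x with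
      commutes' := fun y => sigmaXG_eq_on_adjoin ι A X x x0 y.2 }
  have ha : Function.Injective a := by
    intro x y hxy
    apply sigmaXG_injective ι A.toGenBase X
    refine RingHom.ext fun f => ?_
    exact congrArg (fun φ : FGK K S₀ →ₐ[↥E] LaurentSeries ℂ => φ f) hxy
  haveI : Module.Free ↥E (FGK K S₀) := Module.Free.of_divisionRing ↥E (FGK K S₀)
  haveI : Module.Finite ↥E (FGK K S₀) := ‹FiniteDimensional ↥E (FGK K S₀)›
  haveI : Finite (FGK K S₀ →ₐ[↥E] LaurentSeries ℂ) :=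
    Finite.algHom ↥E (FGK K S₀) (LaurentSeries ℂ)
  calc Nat.card (XG Γ) ≤ Nat.card (FGK K S₀ →ₐ[↥E] LaurentSeries ℂ) :=
        Nat.card_le_card_of_injective a ha
    _ ≤ Module.finrank ↥E (FGK K S₀) := card_algHom_le_finrank ↥E (FGK K S₀) (LaurentSeries ℂ)

/-- the point data over the point `a` -/
def pointAtG (a : K) : GenPointData A.toGenBase (ι a) (epsAt ι a) :=
  letI := Classical.propDecidable
  if h0 : ι a = 0 then by
    rw [epsAt, if_pos h0, h0]; exact A.at0
  else if h1 : ι a = 1728 then by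
    rw [epsAt, if_neg h0, if_pos h1, h1]; exact A.at1728
  else by
    rw [epsAt, if_neg h0, if_neg h1]; exact A.generic (ι a) h0 h1

/-- the local data over a finite point `a : K` -/
def dataFinG (a : K) :
    LocalData K (FGK K S₀) ℂ (XG Γ) (jGK K hj - algebraMap K (FGK K S₀) a) :=
  dataOfPointG ι A (pointAtG ι A a)

theorem dataFinG_perm (a : K) : (dataFinG ι A a).perm = permG Γ (epsAt ι a)⁻¹ := rfl

theorem dataFinG_σ (a : K) :
    (dataFinG ι A a).σ = sigmaXG ι A.toGenBase (pointAtG ι A a).X := rfl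

theorem dataFinG_m (a : K) : (dataFinG ι A a).m = (pointAtG ι A a).R.m := rfl

theorem dataInfG_perm : (dataInfG (K := K) ι A).perm = permG Γ ModularGroup.T⁻¹ := rfl

theorem dataInfG_σ :
    (dataInfG (K := K) ι A).σ = sigmaXG ι A.toGenBase A.toGenBase.qexpExpansion := rfl

theorem dataInfG_m : (dataInfG (K := K) ι A).m = M := rfl

end Core

/-! ### The degree -/

section Deg

variable {K : Type*} [Field K] [Algebra ℚ K] (ι : K →+* ℂ)
variable {S₀ : Set (LaurentSeries ℚ)} {hj : jq ∈ S₀}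
variable {M : ℕ} [NeZero M] {Γ : Subgroup SL(2, ℤ)} (D : GenData M Γ (GenField.ofRat S₀ hj))

theorem coeffMap_image_gensK :
    ⇑(coeffMap ι) '' gensK K S₀ = GenData.SC (GenField.ofRat S₀ hj) := by
  ext x
  constructor
  · rintro ⟨_, ⟨s, hs, rfl⟩, rfl⟩
    refine ⟨coeffEmb Kbar s, ⟨s, hs, rfl⟩, ?_⟩
    rw [coeffMap_coeffEmb', coeffMap_coeffEmb']
  · rintro ⟨_, ⟨s, hs, rfl⟩, rfl⟩
    refine ⟨coeffEmb K s, ⟨s, hs, rfl⟩, ?_⟩
    rw [coeffMap_coeffEmb', coeffMap_coeffEmb']

include ι D in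
/-- **Degree bound**: `[K·ℚ(S₀) : K(j)] ≤ [SL₂(ℤ) : Γ]`. -/
theorem finiteDimensional_and_finrank_leG [Finite (XG Γ)] :
    FiniteDimensional ↥(IntermediateField.adjoin K {jGK K hj}) (FGK K S₀) ∧
      Module.finrank ↥(IntermediateField.adjoin K {jGK K hj}) (FGK K S₀) ≤ Nat.card (XG Γ) := by
  haveI : CharZero K := algebraRat.charZero K
  have hyp : HypG ℂ (⇑(coeffMap ι) '' gensK K S₀) (Nat.card (XG Γ)) := by
    rw [coeffMap_image_gensK ι (hj := hj)]
    exact D.hypG
  exact finiteDimensional_and_finrank_le_G ι (S := gensK K S₀) ⟨jq, hj, rfl⟩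
    (laurentBaseChange K (IntermediateField.adjoin ℚ S₀)) (fgK_eq_adjoin K S₀) (jGK K hj) rfl
    _ hyp

include ι D in
theorem finiteDimensional_adjoin_jGK [Finite (XG Γ)] :
    FiniteDimensional ↥(IntermediateField.adjoin K {jGK K hj}) (FGK K S₀) :=
  (finiteDimensional_and_finrank_leG ι D).1

include ι D in
/-- **The degree**: `[K·ℚ(S₀) : K(j)] = [SL₂(ℤ) : Γ]`. -/
theorem finrank_adjoin_jGK [Finite (XG Γ)] :
    Module.finrank ↥(IntermediateField.adjoin K {jGK K hj}) (FGK K S₀) = Nat.card (XG Γ) := by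
  haveI := finiteDimensional_adjoin_jGK ι D
  exact le_antisymm (finiteDimensional_and_finrank_leG ι D).2 (card_le_finrankG ι D.core)

end Deg

end Fermat.Agent.S48.H282
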